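/-
Programme DS (S48 = Deligne–Serre), chapter Spec, helper36 (chair of the S48 council, board #10).

CONTRACTS of the five chapters as `Prop`s, and the literal statement S48 from them.  This file fixes the
INTERFACES only: the three `Prop`s `CoeffArith` (DS-a), `ResidualAttach` (DS-b + DS-c) and `RankinStmt`
(DS-d) are what the chapters have to deliver, `Endgame` (DS-e) is what consumes them.

* (DS-a) `CoeffArith` : the coefficients `a n`, `ε d` are integers of ONE number field `K ⊆ ℂ`, and every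
  conjugate `∑ σ(a n) qⁿ` is again a weight-one cusp form on `Γ₁(N)` (the ℚ-structure of `S₁(Γ₁(N))`).
* (DS-b,c) `ResidualAttach` : for every prime `ℓ ∤ N` and every residue map `𝓞 K → 𝔽_ℓ` there is a
  semisimple `ρ̄ : G_ℚ → GL₂(𝔽_ℓ)` with finite image, unramified outside `Nℓ`, with
  `tr ρ̄(Frob_p) = ā_p`, `det ρ̄(Frob_p) = ε̄(p)`.
* (DS-d) Rankin is NOT a contract any more: it is a theorem on main, `DS/Rankin/Main65.rankin_crude`
  (`∑_{p ∈ P} |a_p|² p⁻ˢ ≤ K log (1/(s-1)) + C`, any finite set `P` of primes `∤ N`) and `rankin_sharp`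
  (constant `K = 1` under an a-priori bound `|a_p| ≤ B`), with the density corollary `DS/Rankin/Density65`.
  `RankinStmt` below (constant `1`, no a-priori bound, `tsum` form) is kept as documentation only.
* (DS-e) `Endgame` : (DS-a) + (DS-b,c) give the complex representation (density corollary, Chebotarev in
  element-level density form, bounded image, lift to characteristic 0, gluing, irreducibility); it
  consumes the theorems of (DS-d) directly.
-/
import Fermat.Statements.S48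

set_option autoImplicit false

open CongruenceSubgroup
open scoped MatrixGroups NumberField

noncomputable section

namespace Fermat.Agent.DS.Spec.Contracts36

local notation "Γℚ" => (AlgebraicClosure ℚ ≃ₐ[ℚ] AlgebraicClosure ℚ)

/-- the hypotheses `hf₁`, `hT` of S48 for a weight-one cusp form `g` and a Dirichlet character `χ`. -/
def HeckeRel (N : ℕ) [NeZero N] (χ : DirichletCharacter ℂ N) (g : CuspForm (Gamma1 N) 1) : Prop :=
  ModularFormClass.qCoeff g 1 = 1 ∧
  ∀ p : ℕ, p.Prime → ¬ p ∣ N → ∀ n : ℕ,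
    ModularFormClass.qCoeff g (p * n) +
        χ (p : ZMod N) * (if p ∣ n then ModularFormClass.qCoeff g (n / p) else 0) =
      ModularFormClass.qCoeff g p * ModularFormClass.qCoeff g n

/-- the conclusion of S48. -/
def Conclusion (N : ℕ) [NeZero N] (ε : DirichletCharacter ℂ N) (f : CuspForm (Gamma1 N) 1) : Prop :=
  ∃ ρ : Γℚ →* GL (Fin 2) ℂ, GaloisFactorsThroughFiniteLevel ρ ∧
    (Deformation.matrixRepresentation ρ).IsIrreducible ∧
    ∀ p : ℕ, p.Prime → ¬ p ∣ N →
      ∀ A : ValuationSubring (AlgebraicClosure ℚ), A.LiesOverPrime p →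
        (∀ σ ∈ A.inertiaSubgroupIn ℚ, ρ σ = 1) ∧
        ∀ σ : Γℚ, A.IsFrobeniusAt σ p →
          ((ρ σ : GL (Fin 2) ℂ) : Matrix (Fin 2) (Fin 2) ℂ).trace = ModularFormClass.qCoeff f p ∧
          ((ρ σ : GL (Fin 2) ℂ) : Matrix (Fin 2) (Fin 2) ℂ).det = ε (p : ZMod N)

/-! ### (DS-a) arithmetic of the coefficients -/

/-- a number field `K ⊆ ℂ` whose integers contain the coefficients of `f` and the values of `ε`. -/
structure CoeffData (N : ℕ) [NeZero N] (ε : DirichletCharacter ℂ N) (f : CuspForm (Gamma1 N) 1) :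
    Type 1 where
  /-- the coefficient field -/
  K : Type
  [instField : Field K]
  [instNumberField : NumberField K]
  /-- the given embedding -/
  ι : K →+* ℂ
  /-- the coefficients -/
  a : ℕ → 𝓞 K
  /-- the values of the character -/
  e : ZMod N → 𝓞 K
  ι_a : ∀ n : ℕ, ι (a n : K) = ModularFormClass.qCoeff f n
  ι_e : ∀ d : ZMod N, ι (e d : K) = ε d

attribute [instance] CoeffData.instField CoeffData.instNumberField

/-- **(DS-a3)** every conjugate of `f` is again a weight-one cusp form on `Γ₁(N)` (with the conjugate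
character). -/
def CoeffData.ConjForms {N : ℕ} [NeZero N] {ε : DirichletCharacter ℂ N}
    {f : CuspForm (Gamma1 N) 1} (D : CoeffData N ε f) : Prop :=
  ∀ σ : D.K →+* ℂ, ∃ (χ : DirichletCharacter ℂ N) (g : CuspForm (Gamma1 N) 1),
    (∀ d : ZMod N, χ d = σ (D.e d : D.K)) ∧
    ∀ n : ℕ, ModularFormClass.qCoeff g n = σ (D.a n : D.K)

/-! ### (DS-b,c) the residual representations -/

/-- the image of `ρ̄` is semisimple: every stable subspace has a stable complement. -/
def SemisimpleImage {ℓ : ℕ} [Fact ℓ.Prime] (ρ : Γℚ →* GL (Fin 2) (ZMod ℓ)) : Prop :=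
  ∀ L : Submodule (ZMod ℓ) (Fin 2 → ZMod ℓ),
    (∀ σ : Γℚ, L.map (Matrix.toLin' ((ρ σ : GL (Fin 2) (ZMod ℓ)) : Matrix (Fin 2) (Fin 2) (ZMod ℓ)))
      ≤ L) →
    ∃ L' : Submodule (ZMod ℓ) (Fin 2 → ZMod ℓ),
      (∀ σ : Γℚ, L'.map
        (Matrix.toLin' ((ρ σ : GL (Fin 2) (ZMod ℓ)) : Matrix (Fin 2) (Fin 2) (ZMod ℓ))) ≤ L') ∧
      IsCompl L L'

/-- **(DS-b,c)** the mod-`λ` representations, for the primes `λ` of degree one. -/
def ResidualAttach {N : ℕ} [NeZero N] {ε : DirichletCharacter ℂ N}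
    {f : CuspForm (Gamma1 N) 1} (D : CoeffData N ε f) : Prop :=
  ∀ (ℓ : ℕ) [Fact ℓ.Prime], ¬ ℓ ∣ N → ∀ φ : 𝓞 D.K →+* ZMod ℓ,
    ∃ ρ : Γℚ →* GL (Fin 2) (ZMod ℓ), GaloisFactorsThroughFiniteLevel ρ ∧ SemisimpleImage ρ ∧
      ∀ p : ℕ, p.Prime → ¬ p ∣ N * ℓ →
        ∀ A : ValuationSubring (AlgebraicClosure ℚ), A.LiesOverPrime p →
          (∀ σ ∈ A.inertiaSubgroupIn ℚ, ρ σ = 1) ∧
          ∀ σ : Γℚ, A.IsFrobeniusAt σ p →
            ((ρ σ : GL (Fin 2) (ZMod ℓ)) : Matrix (Fin 2) (Fin 2) (ZMod ℓ)).trace = φ (D.a p) ∧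
            ((ρ σ : GL (Fin 2) (ZMod ℓ)) : Matrix (Fin 2) (Fin 2) (ZMod ℓ)).det =
              φ (D.e (p : ZMod N))

/-! ### (DS-d) Rankin -/

/-- (documentation only) Rankin's estimate in its classical form; what is on main is
`DS/Rankin/Main65.rankin_crude` / `rankin_sharp`, which is all that Deligne–Serre need. -/
def RankinStmt : Prop :=
  ∀ (N : ℕ) [NeZero N] (χ : DirichletCharacter ℂ N) (g : CuspForm (Gamma1 N) 1), HeckeRel N χ g →
    ∃ C : ℝ, ∀ s : ℝ, 1 < s → s ≤ 2 →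
      Summable (fun p : Nat.Primes =>
        if (p : ℕ) ∣ N then (0 : ℝ) else ‖ModularFormClass.qCoeff g p‖ ^ 2 / ((p : ℕ) : ℝ) ^ s) ∧
      (∑' p : Nat.Primes,
        if (p : ℕ) ∣ N then (0 : ℝ) else ‖ModularFormClass.qCoeff g p‖ ^ 2 / ((p : ℕ) : ℝ) ^ s) ≤
        Real.log (1 / (s - 1)) + C

/-! ### (DS-e) the endgame, and S48 -/

/-- **(DS-e)** the endgame of Deligne–Serre: (DS-a) + (DS-b,c) give the representation ((DS-d) is a
theorem on main and is consumed directly). -/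
def Endgame : Prop :=
  ∀ (N : ℕ) [NeZero N] (ε : DirichletCharacter ℂ N) (f : CuspForm (Gamma1 N) 1),
    HeckeRel N ε f → ∀ D : CoeffData N ε f, D.ConjForms → ResidualAttach D → Conclusion N ε f

/-- **(DS-a) + (DS-b,c)** as one statement about every `(N, ε, f)` as in S48. -/
def ArithAttach : Prop :=
  ∀ (N : ℕ) [NeZero N] (ε : DirichletCharacter ℂ N) (f : CuspForm (Gamma1 N) 1),
    HeckeRel N ε f → ∃ D : CoeffData N ε f, D.ConjForms ∧ ResidualAttach D

/-- **S48 (literal) from the contracts of the chapters.** -/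
theorem s48_of_contracts (hA : ArithAttach) (hE : Endgame)
    (N : ℕ) [NeZero N] (ε : DirichletCharacter ℂ N) (f : CuspForm (Gamma1 N) 1)
    (hf₁ : ModularFormClass.qCoeff f 1 = 1)
    (hT : ∀ p : ℕ, p.Prime → ¬ p ∣ N → ∀ n : ℕ,
        ModularFormClass.qCoeff f (p * n) +
            ε (p : ZMod N) * (if p ∣ n then ModularFormClass.qCoeff f (n / p) else 0) =
          ModularFormClass.qCoeff f p * ModularFormClass.qCoeff f n) :
    ∃ ρ : Γℚ →* GL (Fin 2) ℂ, GaloisFactorsThroughFiniteLevel ρ ∧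
      (Deformation.matrixRepresentation ρ).IsIrreducible ∧
      ∀ p : ℕ, p.Prime → ¬ p ∣ N →
        ∀ A : ValuationSubring (AlgebraicClosure ℚ), A.LiesOverPrime p →
          (∀ σ ∈ A.inertiaSubgroupIn ℚ, ρ σ = 1) ∧
          ∀ σ : Γℚ, A.IsFrobeniusAt σ p →
            ((ρ σ : GL (Fin 2) ℂ) : Matrix (Fin 2) (Fin 2) ℂ).trace = ModularFormClass.qCoeff f p ∧
            ((ρ σ : GL (Fin 2) ℂ) : Matrix (Fin 2) (Fin 2) ℂ).det = ε (p : ZMod N) := by
  have hH : HeckeRel N ε f := ⟨hf₁, hT⟩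
  obtain ⟨D, hconj, hres⟩ := hA N ε f hH
  exact hE N ε f hH D hconj hres

end Fermat.Agent.DS.Spec.Contracts36
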