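/-
Programme DS / G1 (S48 = Deligne–Serre), chapter Spec, helper12.

CORRECTION of the (DS-a) contract of `DS/Spec/Contracts36`.

`Contracts36.CoeffData N ε f` asks for `a : ℕ → 𝓞 K` with `ι (a n) = qCoeff f n` for EVERY `n`.
That is not provable from the hypotheses of S48: the Hecke relations `hT` are assumed at the primes
`p ∤ N` only, so `f` may be an old form with transcendental coefficients at the indices which are
not prime to `N`.  Example: `g = η(z) η(23 z) ∈ S₁(Γ₁(23))` (a normalised eigenform), `N = 46`,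
`f = g(z) + π · g(2 z) ∈ S₁(Γ₁(46))`: then `a₁(f) = 1`, `f` satisfies `hT` at every `p ∤ 46`
(`T_p` commutes with `g ↦ g(2z)` for `p ≠ 2`), and `a₂(f) = a₂(g) + π = -1 + π` is transcendental.
Hence `Contracts36.CoeffData 46 ε f` is empty and `Contracts36.ArithAttach` is FALSE.

Everything downstream (Rankin `DS/Rankin/Main65`, density `DS/Rankin/Density65`, Chebotarev,
bounded image, lift, gluing, irreducibility) only uses the coefficients `a p` at the PRIMES
`p ∤ N`, and the conjugate forms only through `a₁ = 1`, multiplicativity at `p ∤ N` and the values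
`a_p(g_σ) = σ (a p)` at those primes (this is verbatim the hypothesis list of
`Density65.exists_finite_exceptional_of_conjugates`).  So the corrected contracts are:

* `CoeffDataP N ε f` : as `CoeffData`, but `ι (a p) = qCoeff f p` only for primes `p ∤ N`;
* `CoeffDataP.ConjForms` : for every `σ : K →+* ℂ` a weight-one cusp form `g` on `Γ₁(N)` with
  `a₁(g) = 1`, multiplicative at the primes `p ∤ N`, and `a_p(g) = σ (a p)` for primes `p ∤ N`;
* `ResidualAttachP`, `EndgameP`, `ArithAttachP` : literally as in `Contracts36`;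
* `s48_of_contractsP : ArithAttachP → EndgameP → (literal S48)`.

(Producer side: `K = ℚ(a_p (p ∤ N), ε)` is a number field because the `a_p` are the eigenvalues of
the commuting operators `T_p` on the finite-dimensional space `S₁(Γ₁(N))`, which has a `ℚ`-structure
stable under them; the eigenspace `W` of the system `(a_p)` is then defined over `K`, the linear
form `a₁` is rational and non-zero on `W` (it is `1` at `f`), so `W` contains a `K`-rational `h` with
`a₁(h) = 1`, and `g_σ := h^σ`.  No multiplicity-one / newform theory is needed.)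
-/
import Fermat.Agent.DS.Spec.Contracts36

set_option autoImplicit false

open CongruenceSubgroup
open scoped MatrixGroups NumberField

noncomputable section

namespace Fermat.Agent.DS.Spec.ContractsPrime12

open Fermat.Agent.DS.Spec.Contracts36

local notation "Γℚ" => (AlgebraicClosure ℚ ≃ₐ[ℚ] AlgebraicClosure ℚ)

/-! ### (DS-a) arithmetic of the coefficients at the good primes -/

/-- a number field `K ⊆ ℂ` whose integers contain the coefficients `a_p(f)`, `p ∤ N` prime, and the
values of `ε`.  (The values `a n` at the other indices are junk.) -/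
structure CoeffDataP (N : ℕ) [NeZero N] (ε : DirichletCharacter ℂ N) (f : CuspForm (Gamma1 N) 1) :
    Type 1 where
  /-- the coefficient field -/
  K : Type
  [instField : Field K]
  [instNumberField : NumberField K]
  /-- the given embedding -/
  ι : K →+* ℂ
  /-- the coefficients at the good primes (junk elsewhere) -/
  a : ℕ → 𝓞 K
  /-- the values of the character -/
  e : ZMod N → 𝓞 K
  ι_a : ∀ p : ℕ, p.Prime → ¬ p ∣ N → ι (a p : K) = ModularFormClass.qCoeff f p
  ι_e : ∀ d : ZMod N, ι (e d : K) = ε d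

attribute [instance] CoeffDataP.instField CoeffDataP.instNumberField

/-- **(DS-a3), good primes only**: for every conjugate `σ` there is a normalised weight-one cusp
form on `Γ₁(N)`, multiplicative at the primes `p ∤ N`, whose `p`-th coefficients are the `σ (a p)`.
This is verbatim what `DS/Rankin/Density65.exists_finite_exceptional_of_conjugates` consumes. -/
def CoeffDataP.ConjForms {N : ℕ} [NeZero N] {ε : DirichletCharacter ℂ N}
    {f : CuspForm (Gamma1 N) 1} (D : CoeffDataP N ε f) : Prop :=
  ∀ σ : D.K →+* ℂ, ∃ g : CuspForm (Gamma1 N) 1,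
    ModularFormClass.qCoeff g 1 = 1 ∧
    (∀ p : ℕ, p.Prime → ¬ p ∣ N → ∀ n : ℕ, ¬ p ∣ n →
      ModularFormClass.qCoeff g (p * n) =
        ModularFormClass.qCoeff g p * ModularFormClass.qCoeff g n) ∧
    ∀ p : ℕ, p.Prime → ¬ p ∣ N → ModularFormClass.qCoeff g p = σ (D.a p : D.K)

/-- the old (too strong) data give the new ones. -/
def CoeffDataP.ofCoeffData {N : ℕ} [NeZero N] {ε : DirichletCharacter ℂ N}
    {f : CuspForm (Gamma1 N) 1} (D : CoeffData N ε f) : CoeffDataP N ε f where
  K := D.K
  ι := D.ι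
  a := D.a
  e := D.e
  ι_a := fun p _ _ => D.ι_a p
  ι_e := D.ι_e

/-! ### (DS-b,c) the residual representations -/

/-- **(DS-b,c)** the mod-`λ` representations, for the primes `λ` of degree one (literally
`Contracts36.ResidualAttach`, for the corrected coefficient data). -/
def ResidualAttachP {N : ℕ} [NeZero N] {ε : DirichletCharacter ℂ N}
    {f : CuspForm (Gamma1 N) 1} (D : CoeffDataP N ε f) : Prop :=
  ∀ (ℓ : ℕ) [Fact ℓ.Prime], ¬ ℓ ∣ N → ∀ φ : 𝓞 D.K →+* ZMod ℓ,
    ∃ ρ : Γℚ →* GL (Fin 2) (ZMod ℓ), GaloisFactorsThroughFiniteLevel ρ ∧ SemisimpleImage ρ ∧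
      ∀ p : ℕ, p.Prime → ¬ p ∣ N * ℓ →
        ∀ A : ValuationSubring (AlgebraicClosure ℚ), A.LiesOverPrime p →
          (∀ σ ∈ A.inertiaSubgroupIn ℚ, ρ σ = 1) ∧
          ∀ σ : Γℚ, A.IsFrobeniusAt σ p →
            ((ρ σ : GL (Fin 2) (ZMod ℓ)) : Matrix (Fin 2) (Fin 2) (ZMod ℓ)).trace = φ (D.a p) ∧
            ((ρ σ : GL (Fin 2) (ZMod ℓ)) : Matrix (Fin 2) (Fin 2) (ZMod ℓ)).det =
              φ (D.e (p : ZMod N))

/-! ### (DS-e) the endgame, and S48 -/

/-- **(DS-e)** the endgame of Deligne–Serre for the corrected data. -/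
def EndgameP : Prop :=
  ∀ (N : ℕ) [NeZero N] (ε : DirichletCharacter ℂ N) (f : CuspForm (Gamma1 N) 1),
    HeckeRel N ε f → ∀ D : CoeffDataP N ε f, D.ConjForms → ResidualAttachP D → Conclusion N ε f

/-- **(DS-a) + (DS-b,c)** as one statement about every `(N, ε, f)` as in S48. -/
def ArithAttachP : Prop :=
  ∀ (N : ℕ) [NeZero N] (ε : DirichletCharacter ℂ N) (f : CuspForm (Gamma1 N) 1),
    HeckeRel N ε f → ∃ D : CoeffDataP N ε f, D.ConjForms ∧ ResidualAttachP D

/-- **S48 (literal) from the corrected contracts.** -/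
theorem s48_of_contractsP (hA : ArithAttachP) (hE : EndgameP)
    (N : ℕ) [NeZero N] (ε : DirichletCharacter ℂ N) (f : CuspForm (Gamma1 N) 1)
    (hf₁ : ModularFormClass.qCoeff f 1 = 1)
    (hT : ∀ p : ℕ, p.Prime → ¬ p ∣ N → ∀ n : ℕ,
        ModularFormClass.qCoeff f (p * n) +
            ε (p : ZMod N) * (if p ∣ n then ModularFormClass.qCoeff f (n / p) else 0) =
          ModularFormClass.qCoeff f p * ModularFormClass.qCoeff f n) :
    ∃ ρ : Γℚ →* GL (Fin 2) ℂ, GaloisFactorsThroughFiniteLevel ρ ∧
      (Deformation.matrixRepresentation ρ).IsIrreducible ∧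
      ∀ p : ℕ, p.Prime → ¬ p ∣ N →
        ∀ A : ValuationSubring (AlgebraicClosure ℚ), A.LiesOverPrime p →
          (∀ σ ∈ A.inertiaSubgroupIn ℚ, ρ σ = 1) ∧
          ∀ σ : Γℚ, A.IsFrobeniusAt σ p →
            ((ρ σ : GL (Fin 2) ℂ) : Matrix (Fin 2) (Fin 2) ℂ).trace = ModularFormClass.qCoeff f p ∧
            ((ρ σ : GL (Fin 2) ℂ) : Matrix (Fin 2) (Fin 2) ℂ).det = ε (p : ZMod N) := by
  have hH : HeckeRel N ε f := ⟨hf₁, hT⟩
  obtain ⟨D, hconj, hres⟩ := hA N ε f hH
  exact hE N ε f hH D hconj hres

/-- The endgame for the corrected data implies the endgame of `Contracts36` (so nothing is lost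
for a consumer of the old literal). -/
theorem endgame_of_endgameP (hE : EndgameP) : Endgame := by
  intro N _ ε f hH D hconj hres
  refine hE N ε f hH (CoeffDataP.ofCoeffData D) ?_ ?_
  · intro σ
    obtain ⟨χ, g, hχ, hg⟩ := hconj σ
    -- the Hecke relations hold for the `a n` in `K` (as `ι` is injective), hence for `g`
    have hinj : Function.Injective D.ι := D.ι.injective
    have ha1 : (D.a 1 : D.K) = 1 := by
      apply hinj
      rw [D.ι_a, map_one]
      exact hH.1
    have hmulK : ∀ p : ℕ, p.Prime → ¬ p ∣ N → ∀ n : ℕ, ¬ p ∣ n →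
        (D.a (p * n) : D.K) = (D.a p : D.K) * (D.a n : D.K) := by
      intro p hp hpN n hpn
      apply hinj
      rw [map_mul, D.ι_a, D.ι_a, D.ι_a]
      have := hH.2 p hp hpN n
      simpa [hpn] using this
    refine ⟨g, ?_, ?_, ?_⟩
    · rw [hg 1, ha1, map_one]
    · intro p hp hpN n hpn
      rw [hg, hg, hg, hmulK p hp hpN n hpn, map_mul]
    · intro p _ _
      exact hg p
  · intro ℓ _ hℓ φ
    exact hres ℓ hℓ φ

end Fermat.Agent.DS.Spec.ContractsPrime12
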