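/-
Programme DS / G1 (S48 = Deligne–Serre), chapter Spec, helper36 (chair).

THE FINAL TARGETS of the programme.  On top of helper12's correction `DS/Spec/ContractsPrime12`
(coefficients at the primes `p ∤ N` only) the residual contract is asked only for the primes `ℓ`
outside a finite set:

* `ResidualAttachB D` : `∃ B, ∀ ℓ` prime, `B < ℓ → ℓ ∤ N → ∀ φ : 𝓞 K →+* ZMod ℓ, ∃ ρ̄ …` (same body as
  `ResidualAttachP`).  Reason: at `ℓ = 2` the multiplier `E_{1,ω⁻¹}` of (DS-b) does not exist, and the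
  producers may need `ℓ` prime to further auxiliary data; the endgame needs infinitely many `ℓ` only.
* `ArithAttachB` : what the producers (programme G1: B1–B6) have to prove — the WEAKEST statement.
* `EndgameB` : what the endgame (DS-e) has to prove — it receives the representations only for `ℓ > B`.
* `s48_of_contractsB : ArithAttachB → EndgameB → (literal S48)`.
* `endgameP_of_endgameB : EndgameB → EndgameP` (hence `→ Contracts36.Endgame`), and
  `arithAttachB_of_arithAttachP : ArithAttachP → ArithAttachB`: nothing written against the earlier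
  literals is lost.
-/
import Fermat.Agent.DS.Spec.ContractsPrime12

set_option autoImplicit false

open CongruenceSubgroup
open scoped MatrixGroups NumberField

noncomputable section

namespace Fermat.Agent.DS.Spec.ContractsFinal36

open Fermat.Agent.DS.Spec.Contracts36 Fermat.Agent.DS.Spec.ContractsPrime12

local notation "Γℚ" => (AlgebraicClosure ℚ ≃ₐ[ℚ] AlgebraicClosure ℚ)

/-- the body of the residual contract at one prime `ℓ` and one residue map `φ`. -/
def ResidualAt {N : ℕ} [NeZero N] {ε : DirichletCharacter ℂ N}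
    {f : CuspForm (Gamma1 N) 1} (D : CoeffDataP N ε f) (ℓ : ℕ) [Fact ℓ.Prime]
    (φ : 𝓞 D.K →+* ZMod ℓ) : Prop :=
  ∃ ρ : Γℚ →* GL (Fin 2) (ZMod ℓ), GaloisFactorsThroughFiniteLevel ρ ∧ SemisimpleImage ρ ∧
    ∀ p : ℕ, p.Prime → ¬ p ∣ N * ℓ →
      ∀ A : ValuationSubring (AlgebraicClosure ℚ), A.LiesOverPrime p →
        (∀ σ ∈ A.inertiaSubgroupIn ℚ, ρ σ = 1) ∧
        ∀ σ : Γℚ, A.IsFrobeniusAt σ p →
          ((ρ σ : GL (Fin 2) (ZMod ℓ)) : Matrix (Fin 2) (Fin 2) (ZMod ℓ)).trace = φ (D.a p) ∧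
          ((ρ σ : GL (Fin 2) (ZMod ℓ)) : Matrix (Fin 2) (Fin 2) (ZMod ℓ)).det =
            φ (D.e (p : ZMod N))

theorem residualAttachP_iff {N : ℕ} [NeZero N] {ε : DirichletCharacter ℂ N}
    {f : CuspForm (Gamma1 N) 1} (D : CoeffDataP N ε f) :
    ResidualAttachP D ↔
      ∀ (ℓ : ℕ) [Fact ℓ.Prime], ¬ ℓ ∣ N → ∀ φ : 𝓞 D.K →+* ZMod ℓ, ResidualAt D ℓ φ :=
  Iff.rfl

/-- **(DS-b,c), final form**: the mod-`λ` representations for the primes `λ` of degree one over the
primes `ℓ ∤ N` outside a finite set. -/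
def ResidualAttachB {N : ℕ} [NeZero N] {ε : DirichletCharacter ℂ N}
    {f : CuspForm (Gamma1 N) 1} (D : CoeffDataP N ε f) : Prop :=
  ∃ B : ℕ, ∀ (ℓ : ℕ) [Fact ℓ.Prime], B < ℓ → ¬ ℓ ∣ N → ∀ φ : 𝓞 D.K →+* ZMod ℓ, ResidualAt D ℓ φ

theorem residualAttachB_of_residualAttachP {N : ℕ} [NeZero N] {ε : DirichletCharacter ℂ N}
    {f : CuspForm (Gamma1 N) 1} {D : CoeffDataP N ε f} (h : ResidualAttachP D) :
    ResidualAttachB D :=
  ⟨0, fun ℓ _ _ hℓ φ => h ℓ hℓ φ⟩

/-- **(DS-e), final form**: the endgame receives the residual representations for `ℓ > B` only. -/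
def EndgameB : Prop :=
  ∀ (N : ℕ) [NeZero N] (ε : DirichletCharacter ℂ N) (f : CuspForm (Gamma1 N) 1),
    HeckeRel N ε f → ∀ D : CoeffDataP N ε f, D.ConjForms → ResidualAttachB D → Conclusion N ε f

/-- **(DS-a) + (DS-b,c), final form** = the target of programme G1. -/
def ArithAttachB : Prop :=
  ∀ (N : ℕ) [NeZero N] (ε : DirichletCharacter ℂ N) (f : CuspForm (Gamma1 N) 1),
    HeckeRel N ε f → ∃ D : CoeffDataP N ε f, D.ConjForms ∧ ResidualAttachB D

theorem endgameP_of_endgameB (hE : EndgameB) : EndgameP :=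
  fun N _ ε f hH D hconj hres =>
    hE N ε f hH D hconj (residualAttachB_of_residualAttachP hres)

theorem arithAttachB_of_arithAttachP (hA : ArithAttachP) : ArithAttachB := by
  intro N _ ε f hH
  obtain ⟨D, hconj, hres⟩ := hA N ε f hH
  exact ⟨D, hconj, residualAttachB_of_residualAttachP hres⟩

/-- **S48 (literal) from the final contracts.** -/
theorem s48_of_contractsB (hA : ArithAttachB) (hE : EndgameB)
    (N : ℕ) [NeZero N] (ε : DirichletCharacter ℂ N) (f : CuspForm (Gamma1 N) 1)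
    (hf₁ : ModularFormClass.qCoeff f 1 = 1)
    (hT : ∀ p : ℕ, p.Prime → ¬ p ∣ N → ∀ n : ℕ,
        ModularFormClass.qCoeff f (p * n) +
            ε (p : ZMod N) * (if p ∣ n then ModularFormClass.qCoeff f (n / p) else 0) =
          ModularFormClass.qCoeff f p * ModularFormClass.qCoeff f n) :
    ∃ ρ : Γℚ →* GL (Fin 2) ℂ, GaloisFactorsThroughFiniteLevel ρ ∧
      (Deformation.matrixRepresentation ρ).IsIrreducible ∧
      ∀ p : ℕ, p.Prime → ¬ p ∣ N →
        ∀ A : ValuationSubring (AlgebraicClosure ℚ), A.LiesOverPrime p →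
          (∀ σ ∈ A.inertiaSubgroupIn ℚ, ρ σ = 1) ∧
          ∀ σ : Γℚ, A.IsFrobeniusAt σ p →
            ((ρ σ : GL (Fin 2) ℂ) : Matrix (Fin 2) (Fin 2) ℂ).trace = ModularFormClass.qCoeff f p ∧
            ((ρ σ : GL (Fin 2) ℂ) : Matrix (Fin 2) (Fin 2) ℂ).det = ε (p : ZMod N) := by
  have hH : HeckeRel N ε f := ⟨hf₁, hT⟩
  obtain ⟨D, hconj, hres⟩ := hA N ε f hH
  exact hE N ε f hH D hconj hres

end Fermat.Agent.DS.Spec.ContractsFinal36
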